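import Fermat.Agent.Lib.FrobCH.Defs
import Fermat.Agent.S05.XOnly

/-!
# Skeleton (WIP, statements only) of the Frobenius Cayley-Hamilton library.
Never import this file from a finished file.
-/

namespace Fermat.Agent.Lib.FrobCH.WIP

open Polynomial WeierstrassCurve WeierstrassCurve.Affine IntermediateField
open Fermat.Agent.Lib.FrobCH

noncomputable section

variable {k : Type*} [Field k]

/-! ## N1 `Height.lean` -/

theorem hdeg_div_of_isCoprime {a b : k[X]} (hb : b ≠ 0) (hab : IsCoprime a b) :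
    hdeg (algebraMap k[X] (RatFunc k) a / algebraMap k[X] (RatFunc k) b) = dmax a b := sorry

theorem hdeg_pow (x : RatFunc k) (n : ℕ) : hdeg (x ^ n) = n * hdeg x := sorry

theorem hdeg_eq_zero_iff (x : RatFunc k) : hdeg x = 0 ↔ ∃ c : k, x = RatFunc.C c := sorry

/-! ## N2 `Subst.lean` -/

theorem subst_X {g : RatFunc k} (hg : ¬ ∃ c : k, g = RatFunc.C c) : subst g RatFunc.X = g := sorry

theorem hdeg_subst {g : RatFunc k} (hg : ¬ ∃ c : k, g = RatFunc.C c) (x : RatFunc k) :
    hdeg (subst g x) = hdeg x * hdeg g := sorry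

/-! ## N3 `Triple.lean` -/

theorem dmax3_eq_of_prop {v w : Fin 3 → k[X]} (hv : Prim v) (hw : Prim w)
    (h : ∀ i j, v i * w j = v j * w i) : dmax3 v = dmax3 w := sorry

theorem prim_sym {a₁ b₁ a₂ b₂ : k[X]} (h₁ : IsCoprime a₁ b₁) (h₂ : IsCoprime a₂ b₂) :
    Prim (sym a₁ b₁ a₂ b₂) := sorry

theorem dmax3_sym {a₁ b₁ a₂ b₂ : k[X]} (h₁ : IsCoprime a₁ b₁) (h₂ : IsCoprime a₂ b₂) :
    dmax3 (sym a₁ b₁ a₂ b₂) = dmax a₁ b₁ + dmax a₂ b₂ := sorry

/-! ## N4 `AddSub.lean` -/

theorem prim_asF (W : WeierstrassCurve k) (hΔ : W.Δ ≠ 0) {v : Fin 3 → k[X]} (hv : Prim v) :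
    Prim (asF (W.map C) v) := sorry

theorem dmax3_asF (W : WeierstrassCurve k) (hΔ : W.Δ ≠ 0) (v : Fin 3 → k[X]) :
    dmax3 (asF (W.map C) v) = 2 * dmax3 v := sorry

/-! ## N5 `AddSubGeom.lean` -/

theorem asF_sym2x {L : Type*} [Field L] [DecidableEq L] (W : Affine L) (P Q : W.Point)
    (i j : Fin 3) :
    asF W (P.sym2x Q) i * (P + Q).sym2x (P - Q) j =
      asF W (P.sym2x Q) j * (P + Q).sym2x (P - Q) i := sorry

/-! ## N6 `Parallelogram.lean` -/

theorem parallelogram (W : WeierstrassCurve k) (hΔ : W.Δ ≠ 0) {L : Type*} [Field L]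
    [DecidableEq L] [Algebra k L] [Algebra (RatFunc k) L] [IsScalarTower k (RatFunc k) L]
    {P Q : (W⁄L).Point} {a₁ b₁ a₂ b₂ a₃ b₃ a₄ b₄ : k[X]}
    (h₁ : IsX P a₁ b₁) (h₂ : IsX Q a₂ b₂) (h₃ : IsX (P + Q) a₃ b₃) (h₄ : IsX (P - Q) a₄ b₄) :
    dmax a₃ b₃ + dmax a₄ b₄ = 2 * dmax a₁ b₁ + 2 * dmax a₂ b₂ := sorry

/-! ## N7 `Quad.lean` -/

theorem quad_zero {G : Type*} [AddCommGroup G] (h : G → ℤ)
    (par : ∀ x y, h (x + y) + h (x - y) = 2 * h x + 2 * h y)
    (x y z : G) (q a : ℤ) (hx : h x = 1) (hy : h y = q) (hz : h z = q ^ 2)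
    (hyx : h (y - x) = q + 1 - a) (hzy : h (z - y) = q * (q + 1 - a))
    (hzx : h (z - x) = (q + 1 - a) * (q + 1 + a)) :
    h (z - a • y + q • x) = 0 := sorry

/-! ## N8 `Group.lean` -/

section Group

variable (A B : k) {L : Type*} [Field L] [DecidableEq L] [Algebra k L] [Algebra (RatFunc k) L]
  [IsScalarTower k (RatFunc k) L] {y : L} (hy : y ^ 2 = pol L (fpol A B))

theorem hgt_some {W : Affine L} (r : RatFunc k) {y' : L}
    (h : W.Nonsingular (algebraMap (RatFunc k) L r) y') :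
    hgt k (Point.some _ _ h) = hdeg r := sorry

theorem isX_of_some {W : Affine L} (r : RatFunc k) {y' : L}
    (h : W.Nonsingular (algebraMap (RatFunc k) L r) y') :
    IsX (Point.some _ _ h) r.num r.denom := sorry

theorem isX_zero {W : Affine L} : IsX (k := k) (0 : W.Point) 1 0 := sorry

omit [DecidableEq L] [IsScalarTower k (RatFunc k) L] in
theorem InG.zero : InG A B y 0 := Or.inl rfl

include hy in
theorem InG.neg {P : ((shortW A B)⁄L).Point} (hP : InG A B y P) : InG A B y (-P) := sorry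

include hy in
theorem InG.add {P Q : ((shortW A B)⁄L).Point} (hP : InG A B y P) (hQ : InG A B y Q) :
    InG A B y (P + Q) := sorry

include hy in
theorem hgt_parallelogram (hΔ : (shortW A B).Δ ≠ 0) {P Q : ((shortW A B)⁄L).Point}
    (hP : InG A B y P) (hQ : InG A B y Q) :
    hgt k (P + Q) + hgt k (P - Q) = 2 * hgt k P + 2 * hgt k Q := sorry

include hy in
theorem InG.frob [Fintype k] (h2 : (2 : k) ≠ 0) {P : ((shortW A B)⁄L).Point}
    (hP : InG A B y P) : InG A B y (frob (shortW A B) L P) := sorry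

theorem hgt_frob [Fintype k] {P : ((shortW A B)⁄L).Point} (hP : InG A B y P) :
    hgt k (frob (shortW A B) L P) = Fintype.card k * hgt k P := sorry

/-! ## N11 `Const.lean` -/

include hy in
theorem const_of_hgt_eq_zero {P : ((shortW A B)⁄L).Point} (hP : InG A B y P)
    (h0 : hgt k P = 0) : IsConst P := sorry

end Group

/-! ## N9 `FrobSub.lean` -/

theorem frob_sub_eq [Fintype k] (h2 : (2 : k) ≠ 0) (A B : k) {K : Type*} [Field K] [Algebra k K]
    [DecidableEq K] {t y : K} (h : ((shortW A B)⁄K).Nonsingular t y)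
    (ht : t ^ Fintype.card k ≠ t) :
    ∃ (y' : K) (h' : ((shortW A B)⁄K).Nonsingular (Rex A B t) y'),
      frob (shortW A B) K (.some t y h) - .some t y h = .some _ _ h' := sorry

theorem map_Rex [Fintype k] (A B : k) {K K' : Type*} [Field K] [Algebra k K] [Field K']
    [Algebra k K'] (f : K →ₐ[k] K') (t : K) : f (Rex A B t) = Rex A B (f t) := sorry

theorem eq_C_of_pow_card_eq [Fintype k] {x : RatFunc k} (hx : x ^ Fintype.card k = x) :
    ∃ c : k, x = RatFunc.C c := sorry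

/-! ## N10 `Count.lean` -/

theorem card_add_sum_ecan [Fintype k] (h2 : (2 : k) ≠ 0) (A B : k) (hΔ : (shortW A B).Δ ≠ 0) :
    Nat.card (shortW A B).toAffine.Point + ∑ c : k, ecan A B c = 2 * Fintype.card k + 1 := sorry

theorem hdeg_Rex_X_add_sum_ecan [Fintype k] (h2 : (2 : k) ≠ 0) (A B : k)
    (hΔ : (shortW A B).Δ ≠ 0) :
    hdeg (Rex A B (RatFunc.X : RatFunc k)) + ∑ c : k, ecan A B c = 2 * Fintype.card k + 1 := sorry

theorem hdeg_Rex_X [Fintype k] (h2 : (2 : k) ≠ 0) (A B : k) (hΔ : (shortW A B).Δ ≠ 0) :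
    hdeg (Rex A B (RatFunc.X : RatFunc k)) = Nat.card (shortW A B).toAffine.Point := by
  have h₁ := card_add_sum_ecan h2 A B hΔ
  have h₂ := hdeg_Rex_X_add_sum_ecan h2 A B hΔ
  omega

theorem card_le [Fintype k] (h2 : (2 : k) ≠ 0) (A B : k) (hΔ : (shortW A B).Δ ≠ 0) :
    Nat.card (shortW A B).toAffine.Point ≤ 2 * Fintype.card k + 1 := by
  have h₁ := card_add_sum_ecan h2 A B hΔ
  omega

/-! ## N12 `GenericField.lean` -/

theorem irreducible_Lpoly (A B : k) : Irreducible (Lpoly A B) := sorry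

instance (A B : k) : Fact (Irreducible (Lpoly A B)) := ⟨irreducible_Lpoly A B⟩

theorem root_sq (A B : k) :
    (AdjoinRoot.root (Lpoly A B)) ^ 2 = pol (AdjoinRoot (Lpoly A B)) (fpol A B) := sorry

theorem exists_hom (A B : k) {Ω : Type*} [Field Ω] [Algebra k Ω] (t y : Ω)
    (ht : Transcendental k t)
    (hy : y ^ 2 = t ^ 3 + algebraMap k Ω A * t + algebraMap k Ω B) :
    ∃ τ : AdjoinRoot (Lpoly A B) →ₐ[k] Ω,
      τ (algebraMap (RatFunc k) _ RatFunc.X) = t ∧ τ (AdjoinRoot.root _) = y := sorry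

/-! ## N13 `GenericCH.lean`: the relation at the generic point, up to a constant point -/

theorem generic_CH [Fintype k] (h2 : (2 : k) ≠ 0) (A B : k) (hΔ : (shortW A B).Δ ≠ 0)
    [DecidableEq (AdjoinRoot (Lpoly A B))]
    (h : ((shortW A B)⁄(AdjoinRoot (Lpoly A B))).Nonsingular
      (algebraMap (RatFunc k) _ RatFunc.X) (AdjoinRoot.root (Lpoly A B))) :
    IsConst
      (frob (shortW A B) _ (frob (shortW A B) _ (.some _ _ h))
        - ((Fintype.card k : ℤ) + 1 - (Nat.card (shortW A B).toAffine.Point : ℤ)) •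
            frob (shortW A B) _ (.some _ _ h)
        + (Fintype.card k : ℤ) • (.some _ _ h)) := sorry

/-! ## N14 `Short.lean` -/

theorem CH_short [Fintype k] (h2 : (2 : k) ≠ 0) (A B : k) (hΔ : (shortW A B).Δ ≠ 0)
    {K : Type*} [Field K] [Algebra k K] [DecidableEq K] (P : ((shortW A B)⁄K).Point) :
    frob (shortW A B) K (frob (shortW A B) K P)
        - ((Fintype.card k : ℤ) + 1 - (Nat.card (shortW A B).toAffine.Point : ℤ)) •
            frob (shortW A B) K P
        + (Fintype.card k : ℤ) • P = 0 := sorry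

/-! ## N15 `VarChange.lean` (namespace `Fermat.Agent.Lib.VarChange`) -/

section VarChange

variable {F : Type*} [Field F] [DecidableEq F]

/-- the additive equivalence on points induced by a change of variables -/
def pointEquiv (C : VariableChange F) (W W' : WeierstrassCurve F) (h : C • W = W') :
    W.toAffine.Point ≃+ W'.toAffine.Point := sorry

theorem pointEquiv_some (C : VariableChange F) (W W' : WeierstrassCurve F) (h : C • W = W')
    {x y : F} (hxy : W.toAffine.Nonsingular x y) :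
    ∃ hxy', pointEquiv C W W' h (.some x y hxy) =
      .some ((C.u⁻¹ : Fˣ) ^ 2 * (x - C.r))
        ((C.u⁻¹ : Fˣ) ^ 3 * (y - C.s * (x - C.r) - C.t)) hxy' := sorry

theorem map_pointEquiv {k : Type*} [Field k] (C : VariableChange k) (W W' : WeierstrassCurve k)
    (h : C • W = W') {K K' : Type*} [Field K] [DecidableEq K] [Algebra k K] [Field K']
    [DecidableEq K'] [Algebra k K'] (f : K →ₐ[k] K')
    (hK : C.baseChange K • (W⁄K) = (W'⁄K)) (hK' : C.baseChange K' • (W⁄K') = (W'⁄K'))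
    (P : (W⁄K).Point) :
    Point.map (W' := W') f (pointEquiv (C.baseChange K) (W⁄K) (W'⁄K) hK P) =
      pointEquiv (C.baseChange K') (W⁄K') (W'⁄K') hK' (Point.map (W' := W) f P) := sorry

end VarChange

/-! ## N16 `Main.lean` -/

theorem CH [Fintype k] (h2 : (2 : k) ≠ 0) (h3 : (3 : k) ≠ 0) (W : WeierstrassCurve k)
    (hΔ : W.Δ ≠ 0) {K : Type*} [Field K] [Algebra k K] [DecidableEq K] (P : (W⁄K).Point) :
    frob W K (frob W K P)
        - ((Fintype.card k : ℤ) + 1 - (Nat.card W.toAffine.Point : ℤ)) • frob W K P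
        + (Fintype.card k : ℤ) • P = 0 := sorry

end

end Fermat.Agent.Lib.FrobCH.WIP
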